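/-
S44 / DEPTH, block FIN (sub-architect helper289): WIP SKELETON of the nodes.
Every `sorry` is a leaf (task DEPTH-FIN-*); the owner proves the statement(s) VERBATIM (same names,
same namespace `Fermat.Agent.S44.Depth.FIN`) in the file named in the section header.
`fin_abs` shows that the abstract leaves fit together.
-/
import Fermat.Agent.S44.Depth.Fin.Red

set_option autoImplicit false

noncomputable section

namespace Fermat.Agent.S44.Depth.FIN

open Fermat.Agent.S18 Fermat.Agent.S36.BP Polynomial IntermediateField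

/-! ### Definition of `Red` : file `Fin/Red.lean` (final, landed) -/

section Abs

variable {K₀ κ B : Type*} [Field K₀] [Field κ] [Algebra K₀ κ] [CommRing B]

variable {A₀ : ValuationSubring K₀} {ϖ₀ : K₀} {ψ : B →+* κ} {𝔫 : Ideal B}

/-! ### C : file `Fin/Core.lean` -/

theorem coeff_mem_of_red [𝔫.IsPrime] (hU : IsUnif A₀ ϖ₀) (hH : Hens A₀) (h : Red A₀ ϖ₀ ψ 𝔫)
    (b : B) (hb : IsAlgebraic K₀ (ψ b)) (i : ℕ) : (minpoly K₀ (ψ b)).coeff i ∈ A₀ := sorry

theorem exists_inv_of_red [𝔫.IsPrime] (hU : IsUnif A₀ ϖ₀) (hH : Hens A₀) (h : Red A₀ ϖ₀ ψ 𝔫)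
    (s : B) (hs : s ∉ 𝔫) (hb : IsAlgebraic K₀ (ψ s)) : ∃ t : B, ψ s * ψ t = 1 := sorry

/-! ### S : file `Fin/Span.lean` -/

theorem span_of_monic (z : B) (P : K₀[X]) (hP : P.Monic) (hc : ∀ i, P.coeff i ∈ A₀)
    (hz : aeval (ψ z) P = 0) (S₀ : Finset B)
    (hS₀ : ∀ b : B, ψ b ∈ Submodule.span A₀.toSubring
      {y : κ | ∃ (a : ℕ) (e : B), e ∈ S₀ ∧ y = ψ z ^ a * ψ e}) :
    ∃ S : Finset B, ∀ b : B, ψ b ∈ Submodule.span A₀.toSubring (ψ '' (S : Set B)) := sorry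

theorem isAlgebraic_of_span (hconst : ∀ a ∈ A₀, ∃ b : B, ψ b = algebraMap K₀ κ a) (S : Finset B)
    (hS : ∀ b : B, ψ b ∈ Submodule.span A₀.toSubring (ψ '' (S : Set B))) (b : B) :
    IsAlgebraic K₀ (ψ b) := sorry

/-! ### assembly of the abstract part : file `Fin/Abs.lean` -/

theorem fin_abs [𝔫.IsPrime] (hU : IsUnif A₀ ϖ₀) (hH : Hens A₀) (h : Red A₀ ϖ₀ ψ 𝔫) (z : B)
    (hz : IsAlgebraic K₀ (ψ z)) (S₀ : Finset B)
    (hS₀ : ∀ b : B, ψ b ∈ Submodule.span A₀.toSubring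
      {y : κ | ∃ (a : ℕ) (e : B), e ∈ S₀ ∧ y = ψ z ^ a * ψ e}) :
    ∃ S : Finset B, ∀ (r : κ) (a s : B), s ∉ 𝔫 → r * ψ s = ψ a →
      ∃ c : B → K₀, (∀ x, c x ∈ A₀) ∧ r = ∑ x ∈ S, algebraMap K₀ κ (c x) * ψ x := by
  obtain ⟨S, hS⟩ := span_of_monic (A₀ := A₀) z (minpoly K₀ (ψ z)) (minpoly.monic hz.isIntegral)
    (coeff_mem_of_red hU hH h z hz) (minpoly.aeval _ _) S₀ hS₀
  refine ⟨S, fun r a s hs hr => ?_⟩
  obtain ⟨t, ht⟩ := exists_inv_of_red hU hH h s hs (isAlgebraic_of_span h.const S hS s)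
  have h1 : r = ψ (a * t) := by rw [map_mul, ← hr, mul_assoc, ht, mul_one]
  have h2 := hS (a * t)
  rw [Submodule.mem_span_image_finset_iff_exists_fun'] at h2
  obtain ⟨c, hc⟩ := h2
  refine ⟨fun x => (c x : K₀), fun x => (c x).2, ?_⟩
  rw [h1, ← hc]
  refine Finset.sum_congr rfl fun x _ => ?_
  rw [Algebra.smul_def]
  rfl

end Abs

/-! ### A : file `Fin/Alg.lean` -/

section Alg

variable {K₀ F : Type*} [Field K₀] [Field F] [Algebra K₀ F]

theorem exists_poly_of_hor (z : F) (hfin : FiniteDimensional K₀⟮z⟯ F) (W : ValuationSubring F)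
    (hK : ∀ a : K₀, algebraMap K₀ F a ∈ W) (hz : z ∈ W) (hW : W ≠ ⊤) :
    ∃ P : K₀[X], P ≠ 0 ∧ W.valuation (aeval z P) < 1 := sorry

end Alg

/-! ### R : file `Fin/RootCoeff.lean` -/

section RootCoeff

variable {Ω : Type*} [Field Ω] (V : ValuationSubring Ω)

theorem coeff_prod_mem (s : Multiset Ω) (hs : ∀ β ∈ s, β ∈ V) (i : ℕ) :
    ((s.map fun β => X - C β).prod).coeff i ∈ V := sorry

theorem coeff_prod_lt (s : Multiset Ω) (hs : ∀ β ∈ s, V.valuation β < 1) (i : ℕ)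
    (hi : i < Multiset.card s) : V.valuation (((s.map fun β => X - C β).prod).coeff i) < 1 := sorry

theorem coeff_prod_div_lt (s : Multiset Ω) (hs : ∀ β ∈ s, 1 < V.valuation β) (i : ℕ)
    (hi : 1 ≤ i) :
    V.valuation (((s.map fun β => X - C β).prod).coeff i /
      ((s.map fun β => X - C β).prod).coeff 0) < 1 := sorry

theorem coeff_zero_prod_ne_zero (s : Multiset Ω) (hs : ∀ β ∈ s, β ≠ 0) :
    ((s.map fun β => X - C β).prod).coeff 0 ≠ 0 := sorry

theorem valuation_coeff_zero_prod (s : Multiset Ω) (hs : ∀ β ∈ s, V.valuation β = 1) :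
    V.valuation (((s.map fun β => X - C β).prod).coeff 0) = 1 := sorry

end RootCoeff

end Fermat.Agent.S44.Depth.FIN

end
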